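import Mathlib
import Fermat.Prelude.Def_ModularCurve_PeriodMap

set_option autoImplicit false

open scoped MatrixGroups
open ModularGroup

namespace Fermat.Agent.S21.H97

noncomputable section

variable (Γ : Subgroup SL(2, ℤ))

/-- The coset space `SL(2,ℤ) ⧸ Γ`. -/
abbrev Cos : Type := SL(2, ℤ) ⧸ Γ

/-- Translation operator on functions on the coset space: `(tr g v) x = v (g • x)`. -/
def tr (g : SL(2, ℤ)) : (Cos Γ → ℂ) →ₗ[ℂ] (Cos Γ → ℂ) where
  toFun v x := v (g • x)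
  map_add' _ _ := rfl
  map_smul' _ _ := rfl

@[simp] lemma tr_apply (g : SL(2, ℤ)) (v : Cos Γ → ℂ) (x : Cos Γ) : tr Γ g v x = v (g • x) := rfl

lemma tr_mul (g h : SL(2, ℤ)) (v : Cos Γ → ℂ) : tr Γ (g * h) v = tr Γ h (tr Γ g v) := by
  funext x
  simp [mul_smul]

lemma tr_one (v : Cos Γ → ℂ) : tr Γ 1 v = v := by
  funext x
  simp

/-- An abstract (right) cocycle with values in functions on the coset space. -/
def IsCoc (c : SL(2, ℤ) → (Cos Γ → ℂ)) : Prop :=
  ∀ g h, c (g * h) = tr Γ h (c g) + c h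

variable {Γ}

lemma IsCoc.one {c : SL(2, ℤ) → (Cos Γ → ℂ)} (hc : IsCoc Γ c) : c 1 = 0 := by
  have h := hc 1 1
  rw [mul_one, tr_one] at h
  have h2 : c 1 + 0 = c 1 + c 1 := by rw [add_zero]; exact h
  exact (add_left_cancel h2).symm

lemma IsCoc.inv {c : SL(2, ℤ) → (Cos Γ → ℂ)} (hc : IsCoc Γ c) (g : SL(2, ℤ)) :
    c g⁻¹ = - tr Γ g⁻¹ (c g) := by
  have h := hc g g⁻¹
  rw [mul_inv_cancel, hc.one] at h
  exact eq_neg_of_add_eq_zero_right h.symm

lemma IsCoc.pow {c : SL(2, ℤ) → (Cos Γ → ℂ)} (hc : IsCoc Γ c) (g : SL(2, ℤ)) (n : ℕ) :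
    c (g ^ n) = ∑ i ∈ Finset.range n, ((tr Γ g) ^ i) (c g) := by
  induction n with
  | zero => simp [hc.one]
  | succ n ih =>
    rw [pow_succ, hc, ih, Finset.sum_range_succ', map_sum]
    simp [pow_succ', Module.End.mul_apply]

/-- A cocycle vanishing on a generating set vanishes identically. -/
lemma IsCoc.eq_zero_of_closure {c : SL(2, ℤ) → (Cos Γ → ℂ)} (hc : IsCoc Γ c)
    {s : Set SL(2, ℤ)} (hs : Subgroup.closure s = ⊤) (h0 : ∀ g ∈ s, c g = 0) (g : SL(2, ℤ)) :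
    c g = 0 := by
  have hg : g ∈ Subgroup.closure s := by rw [hs]; trivial
  induction hg using Subgroup.closure_induction with
  | mem x hx => exact h0 x hx
  | one => exact hc.one
  | mul x y _ _ hx hy => rw [hc, hx, hy]; simp
  | inv x _ hx => rw [hc.inv, hx]; simp

/-! ### The induced cocycle -/

section induced

variable (Γ)

open Classical in
/-- Extension by zero of an additive character of `Γ` to a function on `SL(2,ℤ)`. -/
def ext (φ : Additive Γ →+ ℂ) (g : SL(2, ℤ)) : ℂ :=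
  if h : g ∈ Γ then φ (Additive.ofMul ⟨g, h⟩) else 0

variable {Γ}

lemma ext_of_mem (φ : Additive Γ →+ ℂ) {g : SL(2, ℤ)} (h : g ∈ Γ) :
    ext Γ φ g = φ (Additive.ofMul ⟨g, h⟩) := by
  simp [ext, h]

lemma ext_mul (φ : Additive Γ →+ ℂ) {a b : SL(2, ℤ)} (ha : a ∈ Γ) (hb : b ∈ Γ) :
    ext Γ φ (a * b) = ext Γ φ a + ext Γ φ b := by
  rw [ext_of_mem φ ha, ext_of_mem φ hb, ext_of_mem φ (Γ.mul_mem ha hb), ← map_add]
  rfl

lemma ext_one (φ : Additive Γ →+ ℂ) : ext Γ φ 1 = 0 := by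
  have h := ext_mul φ Γ.one_mem Γ.one_mem
  rw [mul_one] at h
  have h2 : ext Γ φ 1 + 0 = ext Γ φ 1 + ext Γ φ 1 := by rw [add_zero]; exact h
  exact (add_left_cancel h2).symm

lemma ext_inv (φ : Additive Γ →+ ℂ) {a : SL(2, ℤ)} (ha : a ∈ Γ) :
    ext Γ φ a⁻¹ = - ext Γ φ a := by
  have h := ext_mul φ ha (Γ.inv_mem ha)
  rw [mul_inv_cancel, ext_one] at h
  exact eq_neg_of_add_eq_zero_right h.symm

lemma ext_add (φ ψ : Additive Γ →+ ℂ) (g : SL(2, ℤ)) :
    ext Γ (φ + ψ) g = ext Γ φ g + ext Γ ψ g := by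
  by_cases h : g ∈ Γ <;> simp [ext, h]

lemma ext_smul (a : ℂ) (φ : Additive Γ →+ ℂ) (g : SL(2, ℤ)) :
    ext Γ (a • φ) g = a * ext Γ φ g := by
  by_cases h : g ∈ Γ <;> simp [ext, h]

variable (Γ)

/-- A set-theoretic section of `SL(2,ℤ) → SL(2,ℤ) ⧸ Γ`. -/
def rep (x : Cos Γ) : SL(2, ℤ) := Quotient.out x

variable {Γ}

lemma mk_rep (x : Cos Γ) : (QuotientGroup.mk (rep Γ x) : Cos Γ) = x := QuotientGroup.out_eq' x

lemma smul_eq_mk (g : SL(2, ℤ)) (x : Cos Γ) :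
    g • x = (QuotientGroup.mk (g * rep Γ x) : Cos Γ) := by
  conv_lhs => rw [← mk_rep x]
  rfl

lemma cocEl_mem (g : SL(2, ℤ)) (x : Cos Γ) : (rep Γ (g • x))⁻¹ * g * rep Γ x ∈ Γ := by
  rw [mul_assoc]
  apply QuotientGroup.eq.mp
  rw [mk_rep, smul_eq_mk]

variable (Γ)

/-- The induced cocycle of an additive character `φ` of `Γ`. -/
def coc (φ : Additive Γ →+ ℂ) (g : SL(2, ℤ)) : Cos Γ → ℂ :=
  fun x => ext Γ φ ((rep Γ (g • x))⁻¹ * g * rep Γ x)

variable {Γ}

lemma coc_isCoc (φ : Additive Γ →+ ℂ) : IsCoc Γ (coc Γ φ) := by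
  intro g h
  funext x
  simp only [coc, Pi.add_apply, tr_apply]
  rw [← ext_mul φ (cocEl_mem g (h • x)) (cocEl_mem h x)]
  congr 1
  rw [mul_smul]
  group

lemma coc_add (φ ψ : Additive Γ →+ ℂ) (g : SL(2, ℤ)) :
    coc Γ (φ + ψ) g = coc Γ φ g + coc Γ ψ g := by
  funext x
  simp [coc, ext_add]

lemma coc_smul (a : ℂ) (φ : Additive Γ →+ ℂ) (g : SL(2, ℤ)) :
    coc Γ (a • φ) g = a • coc Γ φ g := by
  funext x
  simp [coc, ext_smul]

/-- At the base coset the induced cocycle recovers `φ`. -/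
lemma coc_base (φ : Additive Γ →+ ℂ) {γ : SL(2, ℤ)} (hγ : γ ∈ Γ) :
    coc Γ φ γ (QuotientGroup.mk 1 : Cos Γ) = ext Γ φ γ := by
  have hfix : γ • (QuotientGroup.mk 1 : Cos Γ) = QuotientGroup.mk 1 := by
    show (QuotientGroup.mk (γ * 1) : Cos Γ) = QuotientGroup.mk 1
    rw [mul_one]
    apply QuotientGroup.eq.mpr
    simpa using Γ.inv_mem hγ
  have hr : rep Γ (QuotientGroup.mk 1 : Cos Γ) ∈ Γ := by
    have := QuotientGroup.eq.mp (mk_rep (QuotientGroup.mk 1 : Cos Γ))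
    simpa using Γ.inv_mem this
  simp only [coc, hfix]
  rw [ext_mul φ (Γ.mul_mem (Γ.inv_mem hr) hγ) hr, ext_mul φ (Γ.inv_mem hr) hγ, ext_inv φ hr]
  ring

/-- If `z` acts trivially on the coset space then the induced cocycle at `z` is a conjugate
value of `φ`. -/
lemma coc_of_smul_eq (φ : Additive Γ →+ ℂ) (z : SL(2, ℤ)) (x : Cos Γ) (hz : z • x = x) :
    coc Γ φ z x = ext Γ φ ((rep Γ x)⁻¹ * z * rep Γ x) := by
  simp only [coc, hz]

end induced

/-! ### Facts about `SL(2,ℤ)` -/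

section sl2

/-- The element `U = S * T` of order `6`. -/
abbrev U : SL(2, ℤ) := S * T

lemma S_mul_S : (S * S : SL(2, ℤ)) = -1 := by decide

lemma U_cube : (U * U * U : SL(2, ℤ)) = -1 := by decide

lemma closure_S_U : Subgroup.closure ({S, U} : Set SL(2, ℤ)) = ⊤ := by
  rw [eq_top_iff, ← SpecialLinearGroup.SL2Z_generators, Subgroup.closure_le]
  have hS : S ∈ Subgroup.closure ({S, U} : Set SL(2, ℤ)) := Subgroup.subset_closure (by simp)
  have hU : U ∈ Subgroup.closure ({S, U} : Set SL(2, ℤ)) := Subgroup.subset_closure (by simp)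
  rintro g (rfl | rfl)
  · exact hS
  · have : T = S⁻¹ * U := by simp [U]
    rw [this]
    exact Subgroup.mul_mem _ (Subgroup.inv_mem _ hS) hU

lemma trace_conj_T_pow (g : SL(2, ℤ)) (M : ℕ) :
    ((g⁻¹ * T ^ M * g : SL(2, ℤ)) : Matrix (Fin 2) (Fin 2) ℤ).trace = 2 := by
  have h1 : ((g⁻¹ * T ^ M * g : SL(2, ℤ)) : Matrix (Fin 2) (Fin 2) ℤ)
      = (g⁻¹ : SL(2, ℤ)).1 * (T ^ M : SL(2, ℤ)).1 * g.1 := by
    simp [Matrix.SpecialLinearGroup.coe_mul]
  rw [h1, Matrix.trace_mul_comm, ← mul_assoc]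
  have h2 : g.1 * (g⁻¹ : SL(2, ℤ)).1 = 1 := by
    rw [← Matrix.SpecialLinearGroup.coe_mul, mul_inv_cancel]; rfl
  rw [h2, one_mul]
  have h3 : (T ^ M : SL(2, ℤ)).1 = !![1, (M : ℤ); 0, 1] := by
    have := ModularGroup.coe_T_zpow (M : ℤ)
    rwa [zpow_natCast] at this
  rw [h3]
  simp [Matrix.trace_fin_two]

end sl2

/-! ### The comparison map -/

section main

open ModularCurve.Period

lemma neg_one_smul_cos (hneg : (-1 : SL(2, ℤ)) ∈ Γ) (x : Cos Γ) : (-1 : SL(2, ℤ)) • x = x := by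
  induction x using QuotientGroup.induction_on with
  | H g =>
    show (QuotientGroup.mk (-1 * g) : Cos Γ) = QuotientGroup.mk g
    apply QuotientGroup.eq.mpr
    have : (-1 * g)⁻¹ * g = -1 := by simp
    rw [this]
    exact hneg

lemma tr_neg_one (hneg : (-1 : SL(2, ℤ)) ∈ Γ) (v : Cos Γ → ℂ) : tr Γ (-1) v = v := by
  funext x
  simp [neg_one_smul_cos hneg]

lemma tr_pow_apply (g : SL(2, ℤ)) (n : ℕ) (v : Cos Γ → ℂ) (x : Cos Γ) :
    ((tr Γ g) ^ n) v x = v (g ^ n • x) := by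
  induction n generalizing v with
  | zero => simp
  | succ n ih =>
    rw [pow_succ, Module.End.mul_apply, ih, tr_apply, pow_succ', mul_smul]

lemma ext_neg_one (φ : Additive Γ →+ ℂ) : ext Γ φ (-1) = 0 := by
  by_cases hneg : (-1 : SL(2, ℤ)) ∈ Γ
  · have h := ext_mul φ hneg hneg
    rw [show (-1 : SL(2, ℤ)) * -1 = 1 by simp, ext_one] at h
    have h2 : (2 : ℂ) * ext Γ φ (-1) = 0 := by rw [two_mul]; exact h.symm
    simpa using h2
  · simp [ext, hneg]

lemma coc_neg_one (hneg : (-1 : SL(2, ℤ)) ∈ Γ) (φ : Additive Γ →+ ℂ) : coc Γ φ (-1) = 0 := by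
  funext x
  rw [coc_of_smul_eq φ _ x (neg_one_smul_cos hneg x)]
  have : (rep Γ x)⁻¹ * (-1) * rep Γ x = -1 := by simp
  rw [this, ext_neg_one]
  rfl

variable (Γ)

/-- The induced cocycle as a linear map in `φ`. -/
def cocL (g : SL(2, ℤ)) : (Additive Γ →+ ℂ) →ₗ[ℂ] (Cos Γ → ℂ) where
  toFun φ := coc Γ φ g
  map_add' φ ψ := coc_add φ ψ g
  map_smul' a φ := coc_smul a φ g

/-- The combined cocycle `coc φ + ∂v`. -/
def ccoc (φ : Additive Γ →+ ℂ) (v : Cos Γ → ℂ) (g : SL(2, ℤ)) : Cos Γ → ℂ :=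
  coc Γ φ g + (tr Γ g v - v)

variable {Γ}

lemma ccoc_isCoc (φ : Additive Γ →+ ℂ) (v : Cos Γ → ℂ) : IsCoc Γ (ccoc Γ φ v) := by
  intro g h
  simp only [ccoc]
  rw [coc_isCoc φ g h, tr_mul]
  simp only [map_add, map_sub]
  abel

lemma ccoc_neg_one (hneg : (-1 : SL(2, ℤ)) ∈ Γ) (φ : Additive Γ →+ ℂ) (v : Cos Γ → ℂ) :
    ccoc Γ φ v (-1) = 0 := by
  simp [ccoc, coc_neg_one hneg, tr_neg_one hneg]

variable (Γ)

/-- The comparison map `(φ, v) ↦ (c(S), c(U))` for the cocycle `c = coc φ + ∂v`. -/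
def Θ : (parabolicHoms ℂ Γ ℂ × (Cos Γ → ℂ)) →ₗ[ℂ] (Cos Γ → ℂ) × (Cos Γ → ℂ) :=
  LinearMap.prod
    (((cocL Γ S) ∘ₗ (parabolicHoms ℂ Γ ℂ).subtype).coprod (tr Γ S - LinearMap.id))
    (((cocL Γ U) ∘ₗ (parabolicHoms ℂ Γ ℂ).subtype).coprod (tr Γ U - LinearMap.id))

variable {Γ}

lemma Θ_apply (p : parabolicHoms ℂ Γ ℂ × (Cos Γ → ℂ)) :
    Θ Γ p = (ccoc Γ p.1.1 p.2 S, ccoc Γ p.1.1 p.2 U) := rfl

end main

/-! ### Orbit spaces and the constraint spaces -/

section count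

open ModularCurve.Period

variable (Γ)

/-- Orbit space of the cyclic group generated by `g` on the coset space. -/
abbrev Orb (g : SL(2, ℤ)) : Type := MulAction.orbitRel.Quotient (Subgroup.zpowers g) (Cos Γ)

/-- Projection to the orbit space. -/
def prj (g : SL(2, ℤ)) (x : Cos Γ) : Orb Γ g := Quotient.mk'' x

variable {Γ}

lemma prj_smul (g : SL(2, ℤ)) (x : Cos Γ) : prj Γ g (g • x) = prj Γ g x := by
  apply Quotient.sound'
  exact ⟨⟨g, Subgroup.mem_zpowers g⟩, rfl⟩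

lemma prj_surjective (g : SL(2, ℤ)) : Function.Surjective (prj Γ g) :=
  Quotient.mk''_surjective

variable (Γ)

/-- Pullback of functions on the orbit space. -/
def pull (g : SL(2, ℤ)) : (Orb Γ g → ℂ) →ₗ[ℂ] (Cos Γ → ℂ) where
  toFun u x := u (prj Γ g x)
  map_add' _ _ := rfl
  map_smul' _ _ := rfl

variable {Γ}

lemma pull_apply (g : SL(2, ℤ)) (u : Orb Γ g → ℂ) (x : Cos Γ) :
    pull Γ g u x = u (prj Γ g x) := rfl

lemma pull_injective (g : SL(2, ℤ)) : Function.Injective (pull Γ g) := by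
  intro u u' h
  funext ω
  obtain ⟨x, rfl⟩ := prj_surjective g ω
  exact congrFun h x

lemma tr_pull (g : SL(2, ℤ)) (u : Orb Γ g → ℂ) : tr Γ g (pull Γ g u) = pull Γ g u := by
  funext x
  simp [pull, prj_smul]

variable (Γ)

/-- The space cut out by the relations `S² = -1`, `U³ = -1`. -/
def K : Submodule ℂ ((Cos Γ → ℂ) × (Cos Γ → ℂ)) :=
  Submodule.prod (LinearMap.ker (LinearMap.id + tr Γ S))
    (LinearMap.ker (LinearMap.id + tr Γ U + tr Γ U ∘ₗ tr Γ U))

/-- The space of pairs of invariant functions. -/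
def Inv : Submodule ℂ ((Cos Γ → ℂ) × (Cos Γ → ℂ)) :=
  LinearMap.range ((pull Γ S).prodMap (pull Γ U))

variable {Γ}

lemma disjoint_K_Inv : Disjoint (K Γ) (Inv Γ) := by
  rw [Submodule.disjoint_def]
  rintro ⟨a, b⟩ hK ⟨⟨u₁, u₂⟩, hu⟩
  simp only [LinearMap.prodMap_apply, Prod.mk.injEq] at hu
  obtain ⟨rfl, rfl⟩ := hu
  simp only [K, Submodule.mem_prod, LinearMap.mem_ker, LinearMap.add_apply, LinearMap.id_coe,
    id_eq, LinearMap.coe_comp, Function.comp_apply, tr_pull] at hK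
  obtain ⟨h1, h2⟩ := hK
  have e1 : pull Γ S u₁ = 0 := by
    have : (2 : ℂ) • pull Γ S u₁ = 0 := by rw [two_smul]; exact h1
    simpa using this
  have e2 : pull Γ U u₂ = 0 := by
    have : (3 : ℂ) • pull Γ U u₂ = 0 := by
      rw [show (3 : ℂ) = 1 + 1 + 1 by norm_num, add_smul, add_smul, one_smul]; exact h2
    simpa using this
  rw [e1, e2]
  rfl

lemma Θ_mem_K (hneg : (-1 : SL(2, ℤ)) ∈ Γ) (p : parabolicHoms ℂ Γ ℂ × (Cos Γ → ℂ)) :
    Θ Γ p ∈ K Γ := by
  have hc := ccoc_isCoc p.1.1 p.2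
  rw [Θ_apply]
  simp only [K, Submodule.mem_prod, LinearMap.mem_ker, LinearMap.add_apply, LinearMap.id_coe,
    id_eq, LinearMap.coe_comp, Function.comp_apply]
  constructor
  · have h := hc S S
    rw [S_mul_S, ccoc_neg_one hneg] at h
    rw [add_comm]; exact h.symm
  · have h := hc (U * U) U
    rw [U_cube, ccoc_neg_one hneg, hc U U, map_add] at h
    rw [h]; abel

lemma ext_parabolic {φ : Additive Γ →+ ℂ} (hφ : φ ∈ parabolicHoms ℂ Γ ℂ) (g : SL(2, ℤ))
    (hg : (g : Matrix (Fin 2) (Fin 2) ℤ).trace ^ 2 = 4) : ext Γ φ g = 0 := by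
  by_cases h : g ∈ Γ
  · rw [ext_of_mem φ h]
    exact hφ ⟨g, h⟩ hg
  · simp [ext, h]

lemma ccoc_T_pow_eq_zero (p : parabolicHoms ℂ Γ ℂ × (Cos Γ → ℂ)) (M : ℕ)
    (hM : ∀ x : Cos Γ, T ^ M • x = x) : ccoc Γ p.1.1 p.2 (T ^ M) = 0 := by
  funext x
  simp only [ccoc, Pi.add_apply, Pi.sub_apply, tr_apply, hM, sub_self, add_zero, Pi.zero_apply]
  rw [coc_of_smul_eq _ _ x (hM x)]
  apply ext_parabolic p.1.2
  rw [trace_conj_T_pow]
  norm_num

lemma exists_pow_smul_eq [Finite (Cos Γ)] (g : SL(2, ℤ)) :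
    ∃ M : ℕ, 0 < M ∧ ∀ x : Cos Γ, g ^ M • x = x := by
  refine ⟨orderOf (MulAction.toPermHom SL(2, ℤ) (Cos Γ) g), orderOf_pos _, fun x => ?_⟩
  have h := pow_orderOf_eq_one (MulAction.toPermHom SL(2, ℤ) (Cos Γ) g)
  rw [← map_pow] at h
  have := congrArg (fun σ : Equiv.Perm (Cos Γ) => σ x) h
  simpa using this

lemma sum_smul_mul [Fintype (Cos Γ)] (g : SL(2, ℤ)) (a w : Cos Γ → ℂ)
    (hw : ∀ x, w (g • x) = w x) : ∑ x, a (g • x) * w x = ∑ x, a x * w x := by
  calc ∑ x, a (g • x) * w x = ∑ x, a (g • x) * w (g • x) := by simp [hw]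
    _ = ∑ x, a x * w x := Equiv.sum_comp (MulAction.toPerm g) (fun y => a y * w y)

lemma pow_smul_invariant (g : SL(2, ℤ)) (w : Cos Γ → ℂ) (hw : ∀ x, w (g • x) = w x) (i : ℕ)
    (x : Cos Γ) : w (g ^ i • x) = w x := by
  induction i with
  | zero => simp
  | succ i ih => rw [pow_succ', mul_smul, hw, ih]

variable (Γ)

/-- The pairing of `c(T) = b - a·T` against `T`-invariant functions. -/
def Lam [Fintype (Cos Γ)] :
    ((Cos Γ → ℂ) × (Cos Γ → ℂ)) →ₗ[ℂ] Module.Dual ℂ (Orb Γ T → ℂ) where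
  toFun p :=
    { toFun := fun u => ∑ x, (p.2 x - p.1 x) * u (prj Γ T x)
      map_add' := fun u u' => by
        simp only [Pi.add_apply, mul_add, Finset.sum_add_distrib]
      map_smul' := fun a u => by
        simp only [Pi.smul_apply, smul_eq_mul, RingHom.id_apply, Finset.mul_sum]
        refine Finset.sum_congr rfl fun x _ => ?_
        ring }
  map_add' p q := by
    ext u
    simp only [Prod.snd_add, Prod.fst_add, Pi.add_apply, LinearMap.coe_mk, AddHom.coe_mk,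
      LinearMap.add_apply, ← Finset.sum_add_distrib]
    refine Finset.sum_congr rfl fun x _ => ?_
    ring
  map_smul' a p := by
    ext u
    simp only [Prod.smul_snd, Prod.smul_fst, Pi.smul_apply, smul_eq_mul, LinearMap.coe_mk,
      AddHom.coe_mk, RingHom.id_apply, LinearMap.smul_apply, Finset.mul_sum]
    refine Finset.sum_congr rfl fun x _ => ?_
    ring

variable {Γ}

lemma Lam_apply [Fintype (Cos Γ)] (p : (Cos Γ → ℂ) × (Cos Γ → ℂ)) (u : Orb Γ T → ℂ) :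
    Lam Γ p u = ∑ x, (p.2 x - p.1 x) * u (prj Γ T x) := rfl

lemma Lam_Θ [Fintype (Cos Γ)] (p : parabolicHoms ℂ Γ ℂ × (Cos Γ → ℂ)) : Lam Γ (Θ Γ p) = 0 := by
  have hc := ccoc_isCoc p.1.1 p.2
  obtain ⟨M, hM0, hM⟩ := exists_pow_smul_eq (Γ := Γ) T
  ext u
  rw [Lam_apply, Θ_apply, LinearMap.zero_apply]
  set c := ccoc Γ p.1.1 p.2 with hcdef
  set w : Cos Γ → ℂ := pull Γ T u with hwdef
  have hw : ∀ x, w (T • x) = w x := fun x => congrFun (tr_pull T u) x
  -- c(T) = c(U) - c(S)·T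
  have hT : c T = c U - tr Γ T (c S) := by
    have h1 : (T : SL(2, ℤ)) = S⁻¹ * U := by simp [U]
    have h2 := hc S⁻¹ U
    rw [← h1, hc.inv S, map_neg, ← tr_mul, ← h1] at h2
    rw [h2]; abel
  have h3 : ∑ x, (c U x - c S x) * w x = ∑ x, c T x * w x := by
    have := sum_smul_mul T (c S) w hw
    simp only [hT, Pi.sub_apply, tr_apply, sub_mul, Finset.sum_sub_distrib, this]
  show ∑ x, (c U x - c S x) * w x = 0
  rw [h3]
  -- average over the powers of T
  have h4 : (M : ℂ) * ∑ x, c T x * w x = ∑ x, (c (T ^ M)) x * w x := by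
    rw [hc.pow T M]
    simp only [Finset.sum_apply, tr_pow_apply, Finset.sum_mul]
    rw [Finset.sum_comm]
    rw [Finset.sum_congr rfl (fun i _ => sum_smul_mul (T ^ i) (c T) w
      (fun x => pow_smul_invariant T w hw i x))]
    simp
  have hzero : c (T ^ M) = 0 := ccoc_T_pow_eq_zero p M hM
  rw [hzero] at h4
  have hM' : (M : ℂ) ≠ 0 := by exact_mod_cast hM0.ne'
  simpa [hM'] using h4

lemma Θ_ker (p : parabolicHoms ℂ Γ ℂ × (Cos Γ → ℂ)) (hp : Θ Γ p = 0) :
    p.1 = 0 ∧ ∀ x, p.2 x = p.2 (QuotientGroup.mk 1) := by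
  have hc := ccoc_isCoc p.1.1 p.2
  rw [Θ_apply, Prod.mk_eq_zero] at hp
  have hz : ∀ g, ccoc Γ p.1.1 p.2 g = 0 := by
    refine hc.eq_zero_of_closure closure_S_U ?_
    rintro g (rfl | rfl)
    · exact hp.1
    · exact hp.2
  have hfix : ∀ γ ∈ Γ, γ • (QuotientGroup.mk 1 : Cos Γ) = QuotientGroup.mk 1 := by
    intro γ hγ
    show (QuotientGroup.mk (γ * 1) : Cos Γ) = QuotientGroup.mk 1
    rw [mul_one]
    apply QuotientGroup.eq.mpr
    simpa using Γ.inv_mem hγ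
  have h1 : p.1 = 0 := by
    apply Subtype.ext
    apply AddMonoidHom.ext
    intro γ
    obtain ⟨γ, hγ⟩ := γ
    have h := congrFun (hz γ) (QuotientGroup.mk 1)
    simp only [ccoc, Pi.add_apply, Pi.sub_apply, tr_apply, hfix γ hγ, sub_self, add_zero,
      Pi.zero_apply] at h
    rw [coc_base _ hγ, ext_of_mem _ hγ] at h
    exact h
  refine ⟨h1, fun x => ?_⟩
  induction x using QuotientGroup.induction_on with
  | H g =>
    have h := congrFun (hz g) (QuotientGroup.mk 1)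
    simp only [ccoc, h1, Pi.add_apply, Pi.sub_apply, tr_apply, Pi.zero_apply] at h
    have h0 : coc Γ (0 : Additive Γ →+ ℂ) g = 0 := (cocL Γ g).map_zero
    rw [show ((0 : parabolicHoms ℂ Γ ℂ) : Additive Γ →+ ℂ) = 0 from rfl, h0] at h
    simp only [Pi.zero_apply, zero_add] at h
    have h5 : g • (QuotientGroup.mk 1 : Cos Γ) = QuotientGroup.mk g := by
      show (QuotientGroup.mk (g * 1) : Cos Γ) = QuotientGroup.mk g
      rw [mul_one]
    rw [h5] at h
    exact sub_eq_zero.mp h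

end count

/-! ### The dimension count -/

section final

open ModularCurve.Period Module

variable (Γ)

/-- The parabolic homomorphisms of a finite-index subgroup form a finite-dimensional space. -/
theorem finite_parabolicHoms [Γ.FiniteIndex] : Module.Finite ℂ (parabolicHoms ℂ Γ ℂ) := by
  let j : parabolicHoms ℂ Γ ℂ →ₗ[ℂ] (Cos Γ → ℂ) × (Cos Γ → ℂ) :=
    Θ Γ ∘ₗ LinearMap.inl ℂ _ _
  have hj : Function.Injective j := by
    rw [← LinearMap.ker_eq_bot, LinearMap.ker_eq_bot']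
    intro φ hφ
    exact (Θ_ker (φ, 0) hφ).1
  exact Module.Finite.of_injective j hj

variable {Γ}

lemma inv_of_orth [Fintype (Cos Γ)] (g : SL(2, ℤ)) (w : Cos Γ → ℂ)
    (h : ∀ α : Cos Γ → ℂ, ∑ x, (α x - α (g • x)) * w x = 0) : ∀ x, w (g • x) = w x := by
  classical
  intro x₀
  have := h (Pi.single (g • x₀) 1)
  simp only [Pi.single_apply, smul_left_cancel_iff, sub_mul, ite_mul, one_mul, zero_mul,
    Finset.sum_sub_distrib, Finset.sum_ite_eq', Finset.mem_univ, if_true] at this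
  exact sub_eq_zero.mp this

lemma invariant_of_S_U (w : Cos Γ → ℂ) (hS : ∀ x, w (S • x) = w x) (hU : ∀ x, w (U • x) = w x)
    (x : Cos Γ) : w x = w (QuotientGroup.mk 1) := by
  have key : ∀ g : SL(2, ℤ), ∀ x, w (g • x) = w x := by
    intro g
    have hg : g ∈ Subgroup.closure ({S, U} : Set SL(2, ℤ)) := by rw [closure_S_U]; trivial
    induction hg using Subgroup.closure_induction with
    | mem y hy =>
      rcases hy with rfl | rfl
      · exact hS
      · exact hU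
    | one => intro x; simp
    | mul a b _ _ ha hb => intro x; rw [mul_smul, ha, hb]
    | inv a _ ha => intro x; rw [← ha (a⁻¹ • x), smul_inv_smul]
  induction x using QuotientGroup.induction_on with
  | H g =>
    have h5 : g • (QuotientGroup.mk 1 : Cos Γ) = QuotientGroup.mk g := by
      show (QuotientGroup.mk (g * 1) : Cos Γ) = QuotientGroup.mk g
      rw [mul_one]
    rw [← h5, key]

lemma coann_le (hneg : (-1 : SL(2, ℤ)) ∈ Γ) [Fintype (Cos Γ)] :
    (LinearMap.range ((Lam Γ).domRestrict (K Γ))).dualCoannihilator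
      ≤ Submodule.span ℂ {fun _ : Orb Γ T => (1 : ℂ)} := by
  intro u hu
  rw [Submodule.mem_dualCoannihilator] at hu
  have hu' : ∀ k ∈ K Γ, Lam Γ k u = 0 := fun k hk =>
    hu _ ⟨⟨k, hk⟩, rfl⟩
  set w : Cos Γ → ℂ := pull Γ T u with hwdef
  have hS : ∀ x, w (S • x) = w x := by
    apply inv_of_orth
    intro α
    have hk : ((α - tr Γ S α, 0) : (Cos Γ → ℂ) × (Cos Γ → ℂ)) ∈ K Γ := by
      simp only [K, Submodule.mem_prod, LinearMap.mem_ker, LinearMap.add_apply, LinearMap.id_coe,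
        id_eq, map_sub, map_zero, and_true]
      rw [← tr_mul, S_mul_S, tr_neg_one hneg]
      abel
    have := hu' _ hk
    rw [Lam_apply] at this
    simp only [Pi.zero_apply, zero_sub, Pi.sub_apply, tr_apply, neg_mul, Finset.sum_neg_distrib,
      neg_eq_zero] at this
    exact this
  have hU : ∀ x, w (U • x) = w x := by
    apply inv_of_orth
    intro β
    have hk : ((0, β - tr Γ U β) : (Cos Γ → ℂ) × (Cos Γ → ℂ)) ∈ K Γ := by
      simp only [K, Submodule.mem_prod, LinearMap.mem_ker, LinearMap.add_apply, LinearMap.id_coe,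
        id_eq, map_sub, map_zero, true_and, LinearMap.coe_comp, Function.comp_apply]
      have h3 : tr Γ U (tr Γ U (tr Γ U β)) = β := by
        rw [← tr_mul, ← tr_mul, ← mul_assoc, U_cube, tr_neg_one hneg]
      rw [h3]
      abel
    have := hu' _ hk
    rw [Lam_apply] at this
    simp only [Pi.zero_apply, sub_zero, Pi.sub_apply, tr_apply] at this
    exact this
  have hconst : ∀ x, w x = w (QuotientGroup.mk 1) := invariant_of_S_U w hS hU
  rw [Submodule.mem_span_singleton]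
  refine ⟨w (QuotientGroup.mk 1), ?_⟩
  funext ω
  obtain ⟨x, rfl⟩ := prj_surjective T ω
  simpa [hwdef, pull_apply] using (hconst x).symm

variable (Γ)

/-- **Euler-characteristic bound**: for a finite-index subgroup `Γ` of `SL(2,ℤ)` containing `-1`,
`dim Hom_par(Γ, ℂ) + #(S-orbits) + #(ST-orbits) + #(T-orbits) ≤ [SL(2,ℤ) : Γ] + 2`. -/
theorem finrank_parabolicHoms_add_orbits_le [Γ.FiniteIndex] (hneg : (-1 : SL(2, ℤ)) ∈ Γ) :
    finrank ℂ (parabolicHoms ℂ Γ ℂ) + Nat.card (Orb Γ S) + Nat.card (Orb Γ U)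
      + Nat.card (Orb Γ T) ≤ Nat.card (Cos Γ) + 2 := by
  classical
  have : Fintype (Cos Γ) := Fintype.ofFinite _
  have := finite_parabolicHoms Γ
  have : ∀ g, Fintype (Orb Γ g) := fun g => Fintype.ofFinite _
  have hV : finrank ℂ (Cos Γ → ℂ) = Nat.card (Cos Γ) := by
    rw [Module.finrank_fintype_fun_eq_card, Nat.card_eq_fintype_card]
  have hO : ∀ g, finrank ℂ (Orb Γ g → ℂ) = Nat.card (Orb Γ g) := fun g => by
    rw [Module.finrank_fintype_fun_eq_card, Nat.card_eq_fintype_card]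
  -- (1) `K` is disjoint from the invariants
  have h1 : finrank ℂ (K Γ) + finrank ℂ (Inv Γ)
      ≤ finrank ℂ ((Cos Γ → ℂ) × (Cos Γ → ℂ)) :=
    Submodule.finrank_add_finrank_le_of_disjoint disjoint_K_Inv
  have h1' : finrank ℂ (Inv Γ) = Nat.card (Orb Γ S) + Nat.card (Orb Γ U) := by
    have hinj : Function.Injective ((pull Γ S).prodMap (pull Γ U)) :=
      Function.Injective.prodMap (pull_injective S) (pull_injective U)
    rw [Inv, LinearMap.finrank_range_of_inj hinj, Module.finrank_prod, hO, hO]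
  have h1'' : finrank ℂ ((Cos Γ → ℂ) × (Cos Γ → ℂ)) = Nat.card (Cos Γ) + Nat.card (Cos Γ) := by
    rw [Module.finrank_prod, hV]
  -- (2) the pairing with `T`-invariant functions
  set L := (Lam Γ).domRestrict (K Γ) with hL
  have h2 := L.finrank_range_add_finrank_ker
  have h3 := Subspace.finrank_add_finrank_dualCoannihilator_eq (LinearMap.range L)
  have h4 : finrank ℂ (LinearMap.range L).dualCoannihilator ≤ 1 := by
    refine (Submodule.finrank_mono (coann_le hneg)).trans ?_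
    refine (finrank_span_le_card _).trans ?_
    simp
  rw [hO] at h3
  -- (3) the comparison map
  set Θ' : (parabolicHoms ℂ Γ ℂ × (Cos Γ → ℂ)) →ₗ[ℂ] K Γ :=
    (Θ Γ).codRestrict (K Γ) (Θ_mem_K hneg) with hΘ'
  have h5 := Θ'.finrank_range_add_finrank_ker
  have h6 : finrank ℂ (LinearMap.range Θ') ≤ finrank ℂ (LinearMap.ker L) := by
    apply Submodule.finrank_mono
    rintro _ ⟨p, rfl⟩
    rw [LinearMap.mem_ker]
    exact Lam_Θ p
  have h7 : finrank ℂ (LinearMap.ker Θ') ≤ 1 := by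
    have hle : LinearMap.ker Θ' ≤ Submodule.span ℂ
        {((0, fun _ => 1) : parabolicHoms ℂ Γ ℂ × (Cos Γ → ℂ))} := by
      intro p hp
      rw [LinearMap.mem_ker] at hp
      have hp' : Θ Γ p = 0 := congrArg Subtype.val hp
      obtain ⟨hp1, hp2⟩ := Θ_ker p hp'
      rw [Submodule.mem_span_singleton]
      refine ⟨p.2 (QuotientGroup.mk 1), ?_⟩
      apply Prod.ext
      · simp [hp1]
      · funext x
        simp [hp2 x]
    refine (Submodule.finrank_mono hle).trans ?_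
    refine (finrank_span_le_card _).trans ?_
    simp
  have h8 : finrank ℂ (parabolicHoms ℂ Γ ℂ × (Cos Γ → ℂ))
      = finrank ℂ (parabolicHoms ℂ Γ ℂ) + Nat.card (Cos Γ) := by
    rw [Module.finrank_prod, hV]
  omega

end final

/-! ### Burnside: orbit counts in terms of fixed points -/

section burnside

open ModularCurve.Period Module

lemma burnside_cyclic [Finite (Cos Γ)] (g : SL(2, ℤ)) (hg : IsOfFinOrder g) :
    ∑ i ∈ Finset.range (orderOf g), Nat.card (MulAction.fixedBy (Cos Γ) (g ^ i))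
      = Nat.card (Orb Γ g) * orderOf g := by
  classical
  have : Fintype (Cos Γ) := Fintype.ofFinite _
  have : Finite (Subgroup.zpowers g) := Finite.of_equiv _ (finEquivZPowers hg)
  have : Fintype (Subgroup.zpowers g) := Fintype.ofFinite _
  have : Fintype (Orb Γ g) := Fintype.ofFinite _
  have hB := MulAction.sum_card_fixedBy_eq_card_orbits_mul_card_group
    (Subgroup.zpowers g) (Cos Γ)
  rw [Fintype.card_eq_nat_card, Fintype.card_eq_nat_card, Nat.card_zpowers] at hB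
  rw [← hB, ← Fin.sum_univ_eq_sum_range
    (fun i => Nat.card (MulAction.fixedBy (Cos Γ) (g ^ i))) (orderOf g)]
  rw [← (finEquivZPowers hg).sum_comp]
  refine Finset.sum_congr rfl fun i _ => ?_
  rw [Fintype.card_eq_nat_card]
  rfl

lemma fixedBy_neg_mul (hneg : (-1 : SL(2, ℤ)) ∈ Γ) (h : SL(2, ℤ)) :
    MulAction.fixedBy (Cos Γ) (-1 * h) = MulAction.fixedBy (Cos Γ) h := by
  ext x
  rw [MulAction.mem_fixedBy, MulAction.mem_fixedBy, mul_smul, neg_one_smul_cos hneg]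

lemma orderOf_S : orderOf (S : SL(2, ℤ)) = 4 := by
  rw [orderOf_eq_iff (by norm_num)]
  refine ⟨by decide, fun m hm hm0 => ?_⟩
  interval_cases m <;> decide

lemma orderOf_U : orderOf (U : SL(2, ℤ)) = 6 := by
  rw [orderOf_eq_iff (by norm_num)]
  refine ⟨by decide, fun m hm hm0 => ?_⟩
  interval_cases m <;> decide

variable (Γ)

/-- Burnside for `S`: `2 · #(S-orbits) = μ + #Fix(S)`. -/
theorem two_mul_card_orb_S [Γ.FiniteIndex] (hneg : (-1 : SL(2, ℤ)) ∈ Γ) :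
    2 * Nat.card (Orb Γ S) = Nat.card (Cos Γ) + Nat.card (MulAction.fixedBy (Cos Γ) S) := by
  have hfin : IsOfFinOrder (S : SL(2, ℤ)) := by
    rw [← orderOf_pos_iff, orderOf_S]; norm_num
  have h := burnside_cyclic (Γ := Γ) S hfin
  rw [orderOf_S] at h
  simp only [Finset.sum_range_succ, Finset.range_zero, Finset.sum_empty, zero_add, pow_zero,
    pow_one] at h
  have e2 : (S : SL(2, ℤ)) ^ 2 = -1 * 1 := by decide
  have e3 : (S : SL(2, ℤ)) ^ 3 = -1 * S := by decide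
  rw [e2, e3, fixedBy_neg_mul hneg, fixedBy_neg_mul hneg, MulAction.fixedBy_one_eq_univ,
    Nat.card_univ] at h
  omega

/-- Burnside for `U = S * T`: `3 · #(U-orbits) = μ + 2 · #Fix(U)`. -/
theorem three_mul_card_orb_U [Γ.FiniteIndex] (hneg : (-1 : SL(2, ℤ)) ∈ Γ) :
    3 * Nat.card (Orb Γ U) = Nat.card (Cos Γ) + 2 * Nat.card (MulAction.fixedBy (Cos Γ) U) := by
  have hfin : IsOfFinOrder (U : SL(2, ℤ)) := by
    rw [← orderOf_pos_iff, orderOf_U]; norm_num
  have h := burnside_cyclic (Γ := Γ) U hfin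
  rw [orderOf_U] at h
  simp only [Finset.sum_range_succ, Finset.range_zero, Finset.sum_empty, zero_add, pow_zero,
    pow_one] at h
  have e2 : (U : SL(2, ℤ)) ^ 2 = -1 * U⁻¹ := by decide
  have e3 : (U : SL(2, ℤ)) ^ 3 = -1 * 1 := by decide
  have e4 : (U : SL(2, ℤ)) ^ 4 = -1 * U := by decide
  have e5 : (U : SL(2, ℤ)) ^ 5 = U⁻¹ := by decide
  rw [e2, e3, e4, e5, fixedBy_neg_mul hneg, fixedBy_neg_mul hneg, fixedBy_neg_mul hneg,
    MulAction.fixedBy_inv, MulAction.fixedBy_one_eq_univ, Nat.card_univ] at h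
  omega

/-- The bound in terms of fixed points of `S`, `S * T` and the number of `T`-orbits:
`6 · dim Hom_par(Γ, ℂ) + 3 ν₂ + 4 ν₃ + 6 ν_∞ ≤ μ + 12`. -/
theorem six_mul_finrank_parabolicHoms_le [Γ.FiniteIndex] (hneg : (-1 : SL(2, ℤ)) ∈ Γ) :
    6 * finrank ℂ (parabolicHoms ℂ Γ ℂ)
        + 3 * Nat.card (MulAction.fixedBy (SL(2, ℤ) ⧸ Γ) S)
        + 4 * Nat.card (MulAction.fixedBy (SL(2, ℤ) ⧸ Γ) (S * T))
        + 6 * Nat.card (MulAction.orbitRel.Quotient (Subgroup.zpowers T) (SL(2, ℤ) ⧸ Γ))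
      ≤ Nat.card (SL(2, ℤ) ⧸ Γ) + 12 := by
  have h1 := finrank_parabolicHoms_add_orbits_le Γ hneg
  have h2 := two_mul_card_orb_S Γ hneg
  have h3 := three_mul_card_orb_U Γ hneg
  have e1 : Nat.card (MulAction.fixedBy (SL(2, ℤ) ⧸ Γ) (S * T))
      = Nat.card (MulAction.fixedBy (Cos Γ) U) := rfl
  have e2 : Nat.card (MulAction.orbitRel.Quotient (Subgroup.zpowers T) (SL(2, ℤ) ⧸ Γ))
      = Nat.card (Orb Γ T) := rfl
  have e3 : Nat.card (SL(2, ℤ) ⧸ Γ) = Nat.card (Cos Γ) := rfl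
  have e4 : Nat.card (MulAction.fixedBy (SL(2, ℤ) ⧸ Γ) S)
      = Nat.card (MulAction.fixedBy (Cos Γ) S) := rfl
  rw [e1, e2, e3, e4]
  omega

end burnside

/-! ### The case `Γ = Γ₀(N)` -/

section gamma0

open ModularCurve.Period Module CongruenceSubgroup

lemma neg_one_mem_Gamma0 (N : ℕ) : (-1 : SL(2, ℤ)) ∈ Gamma0 N := by
  rw [Gamma0_mem]
  simp

/-- `Hom_par(Γ₀(N), ℂ)` is finite-dimensional. -/
theorem finite_parabolicHoms_Gamma0 (N : ℕ) [NeZero N] :
    Module.Finite ℂ (parabolicHoms ℂ (Gamma0 N) ℂ) :=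
  finite_parabolicHoms (Gamma0 N)

/-- `6 · dim Hom_par(Γ₀(N), ℂ) + 3 ν₂ + 4 ν₃ + 6 ν_∞ ≤ μ + 12`, i.e.
`dim Hom_par(Γ₀(N), ℂ) ≤ 2 + μ/6 - ν₂/2 - 2ν₃/3 - ν_∞ = 2 g(X₀(N))`, with `μ`, `ν₂`, `ν₃`, `ν_∞`
the index, the numbers of fixed points of `S` and `S * T` and the number of `T`-orbits on
`SL(2,ℤ) ⧸ Γ₀(N)`. -/
theorem six_mul_finrank_parabolicHoms_Gamma0_le (N : ℕ) [NeZero N] :
    6 * finrank ℂ (parabolicHoms ℂ (Gamma0 N) ℂ)
        + 3 * Nat.card (MulAction.fixedBy (SL(2, ℤ) ⧸ Gamma0 N) S)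
        + 4 * Nat.card (MulAction.fixedBy (SL(2, ℤ) ⧸ Gamma0 N) (S * T))
        + 6 * Nat.card (MulAction.orbitRel.Quotient (Subgroup.zpowers T) (SL(2, ℤ) ⧸ Gamma0 N))
      ≤ Nat.card (SL(2, ℤ) ⧸ Gamma0 N) + 12 :=
  six_mul_finrank_parabolicHoms_le (Gamma0 N) (neg_one_mem_Gamma0 N)

end gamma0

end

end Fermat.Agent.S21.H97
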